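import Mathlib

set_option autoImplicit false

/-!
The 3-division quartic `X⁴ - 6 a X² - 8 b X - 3 a²` and Hensel-type lemmas.
-/

namespace Fermat.Agent.S52A

open Polynomial

section Basic

variable {R : Type*} [CommRing R]

/-- the quartic -/
def Qv (a b x : R) : R := x ^ 4 - 6 * a * x ^ 2 - 8 * b * x - 3 * a ^ 2

/-- its derivative in `x` -/
def Qd (a b x : R) : R := 4 * x ^ 3 - 12 * a * x - 8 * b

lemma map_Qv {S : Type*} [CommRing S] (f : R →+* S) (a b x : R) :
    f (Qv a b x) = Qv (f a) (f b) (f x) := by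
  simp only [Qv, map_sub, map_mul, map_pow, map_ofNat]

lemma map_Qd {S : Type*} [CommRing S] (f : R →+* S) (a b x : R) :
    f (Qd a b x) = Qd (f a) (f b) (f x) := by
  simp only [Qd, map_sub, map_mul, map_pow, map_ofNat]

/-- simple roots: if `2,3` are nonzero in a field and `a³ ≠ b²` then roots of the quartic are
simple. -/
lemma Qd_ne_zero {K : Type*} [Field K] (h2 : (2 : K) ≠ 0) (h3 : (3 : K) ≠ 0) {a b x : K}
    (hab : a ^ 3 ≠ b ^ 2) (h : Qv a b x = 0) : Qd a b x ≠ 0 := by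
  intro hd
  simp only [Qv, Qd] at h hd
  have h4 : (4 : K) ≠ 0 := by
    have : (4 : K) = 2 * 2 := by norm_num
    rw [this]; exact mul_ne_zero h2 h2
  have hS : x ^ 3 - 3 * a * x - 2 * b = 0 := by
    have : 4 * (x ^ 3 - 3 * a * x - 2 * b) = 0 := by linear_combination hd
    exact (mul_eq_zero.mp this).resolve_left h4
  have hT : a * x ^ 2 + 2 * b * x + a ^ 2 = 0 := by
    have : 3 * (a * x ^ 2 + 2 * b * x + a ^ 2) = 0 := by linear_combination x * hS - h
    exact (mul_eq_zero.mp this).resolve_left h3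
  have hx : x = 0 := by
    have : 4 * (a ^ 3 - b ^ 2) * x = 0 := by
      linear_combination (a * x - 2 * b) * hT - a ^ 2 * hS
    rcases mul_eq_zero.mp this with h5 | h5
    · rcases mul_eq_zero.mp h5 with h6 | h6
      · exact absurd h6 h4
      · exact absurd (sub_eq_zero.mp h6) hab
    · exact h5
  rw [hx] at hS hT
  have hb : b = 0 := by
    have : 2 * b = 0 := by linear_combination -hS
    exact (mul_eq_zero.mp this).resolve_left h2
  have ha : a = 0 := by
    have : a ^ 2 = 0 := by linear_combination hT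
    exact pow_eq_zero_iff two_ne_zero |>.mp this
  exact hab (by rw [ha, hb]; ring)

/-- nilpotent perturbation of the quartic. -/
lemma isNilpotent_Qv {a a' b b' x x' : R} (ha : IsNilpotent (a' - a)) (hb : IsNilpotent (b' - b))
    (hx : IsNilpotent (x' - x)) (h : IsNilpotent (Qv a b x)) : IsNilpotent (Qv a' b' x') := by
  rw [← mem_nilradical] at *
  have key : Qv a' b' x' = Qv a b x + ((x' - x) * (x' ^ 3 + x' ^ 2 * x + x' * x ^ 2 + x ^ 3
      - 6 * a' * (x' + x) - 8 * b')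
      - (a' - a) * (6 * x ^ 2 + 3 * (a' + a)) - (b' - b) * (8 * x)) := by
    simp only [Qv]; ring
  rw [key]
  exact Ideal.add_mem _ h (Ideal.sub_mem _ (Ideal.sub_mem _ (Ideal.mul_mem_right _ _ hx)
    (Ideal.mul_mem_right _ _ ha)) (Ideal.mul_mem_right _ _ hb))

lemma isUnit_Qd {a a' b b' x x' : R} (ha : IsNilpotent (a' - a)) (hb : IsNilpotent (b' - b))
    (hx : IsNilpotent (x' - x)) (h : IsUnit (Qd a b x)) : IsUnit (Qd a' b' x') := by
  have key : Qd a' b' x' = Qd a b x + ((x' - x) * (4 * (x' ^ 2 + x' * x + x ^ 2) - 12 * a')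
      - (a' - a) * (12 * x) - (b' - b) * 8) := by
    simp only [Qd]; ring
  rw [key]
  refine IsNilpotent.isUnit_add_left_of_commute ?_ h (Commute.all _ _)
  rw [← mem_nilradical] at *
  exact (Ideal.sub_mem _ (Ideal.sub_mem _ (Ideal.mul_mem_right _ _ hx)
    (Ideal.mul_mem_right _ _ ha)) (Ideal.mul_mem_right _ _ hb))

/-- uniqueness of roots near a simple root modulo nilpotents -/
lemma root_unique {a b x y : R} (hxy : IsNilpotent (y - x)) (hx : Qv a b x = 0)
    (hy : Qv a b y = 0) (hd : IsUnit (Qd a b x)) : y = x := by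
  have key : Qv a b y - Qv a b x = (y - x) * (Qd a b x + (y - x) * (y ^ 2 + 2 * x * y + 3 * x ^ 2
      - 6 * a)) := by
    simp only [Qv, Qd]; ring
  rw [hx, hy, sub_zero] at key
  have hu : IsUnit (Qd a b x + (y - x) * (y ^ 2 + 2 * x * y + 3 * x ^ 2 - 6 * a)) := by
    refine IsNilpotent.isUnit_add_left_of_commute ?_ hd (Commute.all _ _)
    exact (Commute.all _ _).isNilpotent_mul_right hxy
  have := (hu.mul_left_eq_zero).mp key.symm
  exact sub_eq_zero.mp this

lemma aeval_quartic (c2 c1 c0 x : R) :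
    aeval x (X ^ 4 - C c2 * X ^ 2 - C c1 * X - C c0 : R[X]) = x ^ 4 - c2 * x ^ 2 - c1 * x - c0 ∧
    aeval x (derivative (X ^ 4 - C c2 * X ^ 2 - C c1 * X - C c0 : R[X]))
      = 4 * x ^ 3 - 2 * c2 * x - c1 := by
  constructor
  · simp
  · simp; ring

/-- Hensel: existence. -/
lemma exists_root_near {a b x : R} (h : IsNilpotent (Qv a b x)) (hd : IsUnit (Qd a b x)) :
    ∃ r, IsNilpotent (r - x) ∧ Qv a b r = 0 := by
  let P : R[X] := X ^ 4 - C (6 * a) * X ^ 2 - C (8 * b) * X - C (3 * a ^ 2)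
  have e1 : ∀ y : R, aeval y P = Qv a b y := by
    intro y; rw [(aeval_quartic _ _ _ _).1, Qv]
  have e2 : aeval x (derivative P) = Qd a b x := by
    rw [(aeval_quartic _ _ _ _).2, Qd]; ring
  obtain ⟨r, ⟨hr1, hr2⟩, -⟩ := Polynomial.existsUnique_nilpotent_sub_and_aeval_eq_zero
    (P := P) (x := x) (by rw [e1]; exact h) (by rw [e2]; exact hd)
  refine ⟨r, ?_, by rw [← e1]; exact hr2⟩
  rw [← neg_sub, isNilpotent_neg_iff]
  exact hr1

end Basic

/-- truncated polynomial root: `Qv A B G ≡ 0 mod X^11` -/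
theorem exists_trunc {R : Type*} [CommRing R] (A B : R[X]) (x₀ : R)
    (h1 : IsNilpotent (Qv (A.coeff 0) (B.coeff 0) x₀))
    (h2 : IsUnit (Qd (A.coeff 0) (B.coeff 0) x₀)) :
    ∃ G : R[X], G.natDegree < 11 ∧ X ^ 11 ∣ Qv A B G ∧ ∃ n, X ^ 11 ∣ (G - C x₀) ^ n := by
  rcases subsingleton_or_nontrivial R with hR | hR
  · exact ⟨0, by simp, ⟨0, Subsingleton.elim _ _⟩, 0, ⟨0, Subsingleton.elim _ _⟩⟩
  let I : Ideal R[X] := Ideal.span {X ^ 11}
  have hT : IsNilpotent (Ideal.Quotient.mk I X) := by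
    refine ⟨11, ?_⟩
    rw [← map_pow, Ideal.Quotient.eq_zero_iff_mem]
    exact Ideal.mem_span_singleton_self _
  have hnil : ∀ P : R[X], IsNilpotent (Ideal.Quotient.mk I P - Ideal.Quotient.mk I (C (P.coeff 0))) := by
    intro P
    rw [← map_sub]
    obtain ⟨Q, hQ⟩ : X ∣ P - C (P.coeff 0) := by
      rw [X_dvd_iff]; simp
    rw [hQ, map_mul]
    exact (Commute.all _ _).isNilpotent_mul_right hT
  let f : R →+* R[X] ⧸ I := (Ideal.Quotient.mk I).comp C
  have h1' : IsNilpotent (Qv (f (A.coeff 0)) (f (B.coeff 0)) (f x₀)) := by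
    rw [← map_Qv]; exact h1.map f
  have h2' : IsUnit (Qd (f (A.coeff 0)) (f (B.coeff 0)) (f x₀)) := by
    rw [← map_Qd]; exact h2.map f
  have hz : IsNilpotent (f x₀ - f x₀) := by rw [sub_self]; exact IsNilpotent.zero
  obtain ⟨r, hr1, hr2⟩ := exists_root_near
    (isNilpotent_Qv (hnil A) (hnil B) hz h1') (isUnit_Qd (hnil A) (hnil B) hz h2')
  obtain ⟨G0, rfl⟩ := Ideal.Quotient.mk_surjective r
  have hmonic : (X ^ 11 : R[X]).Monic := monic_X_pow 11
  have hG : Ideal.Quotient.mk I (G0 %ₘ X ^ 11) = Ideal.Quotient.mk I G0 := by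
    rw [Ideal.Quotient.eq]
    have := modByMonic_add_div G0 (X ^ 11 : R[X])
    rw [Ideal.mem_span_singleton]
    refine ⟨-(G0 /ₘ X ^ 11), ?_⟩
    linear_combination this
  refine ⟨G0 %ₘ X ^ 11, ?_, ?_, ?_⟩
  · have := natDegree_modByMonic_lt G0 hmonic (by
      intro h
      have := congrArg natDegree h
      simp at this)
    simpa using this
  · rw [← Ideal.mem_span_singleton, ← Ideal.Quotient.eq_zero_iff_mem]
    change Ideal.Quotient.mk I _ = 0
    rw [map_Qv, hG]; exact hr2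
  · obtain ⟨n, hn⟩ := hr1
    refine ⟨n, ?_⟩
    rw [← Ideal.mem_span_singleton, ← Ideal.Quotient.eq_zero_iff_mem]
    change Ideal.Quotient.mk I _ = 0
    rw [map_pow, map_sub, hG]; exact hn

end Fermat.Agent.S52A
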