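import Mathlib
import Fermat.Agent.S52.Forms
import Fermat.Prelude.Def_FLTPrelim_Modularity

set_option autoImplicit false

/-!
Number of points of a Weierstrass curve and of its short form.
-/

namespace Fermat.Agent.S52A

open WeierstrassCurve Fermat.Agent.S52

variable {F : Type} [Field F]

lemma card_point [Finite F] (V : WeierstrassCurve F) (hΔ : V.Δ ≠ 0) :
    Nat.card V.toAffine.Point
      = Nat.card {P : F × F // V.toAffine.Equation P.1 P.2} + 1 := by
  rw [Nat.card_congr (Affine.nonsingularPointEquiv V.toAffine)]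
  have h : Nat.card (WithZero {xy : F × F // V.toAffine.Nonsingular xy.fst xy.snd})
      = Nat.card {xy : F × F // V.toAffine.Nonsingular xy.fst xy.snd} + 1 :=
    Finite.card_option
  rw [h]
  congr 1
  apply Nat.card_congr
  apply Equiv.subtypeEquivRight
  intro P
  exact (Affine.equation_iff_nonsingular_of_Δ_ne_zero (W := V.toAffine) hΔ).symm

lemma shortE_Δ (V : WeierstrassCurve F) :
    (shortE V.c₄ V.c₆).Δ = 6 ^ 12 * V.Δ := by
  simp only [shortE, WeierstrassCurve.Δ, WeierstrassCurve.b₂, WeierstrassCurve.b₄,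
    WeierstrassCurve.b₆, WeierstrassCurve.b₈, WeierstrassCurve.c₄, WeierstrassCurve.c₆]
  ring

lemma short_equation_iff (V : WeierstrassCurve F) (h2 : (2 : F) ≠ 0) (h3 : (3 : F) ≠ 0) (x y : F) :
    (shortE V.c₄ V.c₆).toAffine.Equation (36 * x + 3 * V.b₂) (216 * y + 108 * (V.a₁ * x + V.a₃))
      ↔ V.toAffine.Equation x y := by
  rw [Affine.equation_iff', Affine.equation_iff']
  have h46656 : (46656 : F) ≠ 0 := by
    have : (46656 : F) = 2 ^ 6 * 3 ^ 6 := by norm_num
    rw [this]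
    exact mul_ne_zero (pow_ne_zero _ h2) (pow_ne_zero _ h3)
  constructor
  · intro h
    apply (mul_eq_zero.mp (?_ : (46656 : F) * _ = 0)).resolve_left h46656
    simp only [shortE, WeierstrassCurve.b₂, WeierstrassCurve.b₄,
      WeierstrassCurve.b₆, WeierstrassCurve.c₄, WeierstrassCurve.c₆] at h ⊢
    linear_combination h
  · intro h
    simp only [shortE, WeierstrassCurve.b₂, WeierstrassCurve.b₄,
      WeierstrassCurve.b₆, WeierstrassCurve.c₄, WeierstrassCurve.c₆] at h ⊢
    linear_combination 46656 * h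

/-- the change of variables as a bijection of the plane -/
def planeEquiv (V : WeierstrassCurve F) (h2 : (2 : F) ≠ 0) (h3 : (3 : F) ≠ 0) :
    F × F ≃ F × F where
  toFun P := (36 * P.1 + 3 * V.b₂, 216 * P.2 + 108 * (V.a₁ * P.1 + V.a₃))
  invFun P := ((P.1 - 3 * V.b₂) / 36,
    (P.2 - 108 * (V.a₁ * ((P.1 - 3 * V.b₂) / 36) + V.a₃)) / 216)
  left_inv P := by
    have h36 : (36 : F) ≠ 0 := by
      have : (36 : F) = 2 ^ 2 * 3 ^ 2 := by norm_num
      rw [this]; exact mul_ne_zero (pow_ne_zero _ h2) (pow_ne_zero _ h3)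
    have h216 : (216 : F) ≠ 0 := by
      have : (216 : F) = 2 ^ 3 * 3 ^ 3 := by norm_num
      rw [this]; exact mul_ne_zero (pow_ne_zero _ h2) (pow_ne_zero _ h3)
    have e1 : (36 * P.1 + 3 * V.b₂ - 3 * V.b₂) / 36 = P.1 := by
      rw [div_eq_iff h36]; ring
    refine Prod.ext ?_ ?_
    · exact e1
    · simp only [e1]
      rw [div_eq_iff h216]; ring
  right_inv P := by
    have h36 : (36 : F) ≠ 0 := by
      have : (36 : F) = 2 ^ 2 * 3 ^ 2 := by norm_num
      rw [this]; exact mul_ne_zero (pow_ne_zero _ h2) (pow_ne_zero _ h3)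
    have h216 : (216 : F) ≠ 0 := by
      have : (216 : F) = 2 ^ 3 * 3 ^ 3 := by norm_num
      rw [this]; exact mul_ne_zero (pow_ne_zero _ h2) (pow_ne_zero _ h3)
    refine Prod.ext ?_ ?_
    · simp only
      rw [mul_div_cancel₀ _ h36]; ring
    · simp only
      rw [mul_div_cancel₀ _ h216]; ring

lemma planeEquiv_equation (V : WeierstrassCurve F) (h2 : (2 : F) ≠ 0) (h3 : (3 : F) ≠ 0)
    (P : F × F) : V.toAffine.Equation P.1 P.2 ↔
      (shortE V.c₄ V.c₆).toAffine.Equation (planeEquiv V h2 h3 P).1 (planeEquiv V h2 h3 P).2 := by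
  have h := short_equation_iff V h2 h3 P.1 P.2
  have e1 : (planeEquiv V h2 h3 P).1 = 36 * P.1 + 3 * V.b₂ := rfl
  have e2 : (planeEquiv V h2 h3 P).2 = 216 * P.2 + 108 * (V.a₁ * P.1 + V.a₃) := rfl
  rw [e1, e2, h]

theorem card_short [Finite F] (V : WeierstrassCurve F) (h2 : (2 : F) ≠ 0) (h3 : (3 : F) ≠ 0)
    (hΔ : V.Δ ≠ 0) :
    Nat.card V.toAffine.Point = Nat.card (shortE V.c₄ V.c₆).toAffine.Point := by
  have hΔ' : (shortE V.c₄ V.c₆).Δ ≠ 0 := by
    rw [shortE_Δ]
    have h6 : (6 : F) ≠ 0 := by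
      have : (6 : F) = 2 * 3 := by norm_num
      rw [this]; exact mul_ne_zero h2 h3
    exact mul_ne_zero (pow_ne_zero _ h6) hΔ
  have h1 := card_point V hΔ
  have h4 := card_point (shortE V.c₄ V.c₆) hΔ'
  have h5 : Nat.card {P : F × F // V.toAffine.Equation P.1 P.2}
      = Nat.card {P : F × F // (shortE V.c₄ V.c₆).toAffine.Equation P.1 P.2} :=
    Nat.card_congr ((planeEquiv V h2 h3).subtypeEquiv (planeEquiv_equation V h2 h3))
  rw [h1, h4, h5]

end Fermat.Agent.S52A
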