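import Mathlib

set_option autoImplicit false

/-!
Integer Lagrange weights: a linear relation between the values of polynomials of degree `≤ 10`
at 12 distinct integers.
-/

namespace Fermat.Agent.S52A

open Polynomial

def wt (V : Finset ℤ) (i : ℤ) : ℤ := ∏ i' ∈ V.erase i, ∏ j ∈ V.erase i', (i' - j)

def wtot (V : Finset ℤ) : ℤ := ∏ i' ∈ V, ∏ j ∈ V.erase i', (i' - j)

lemma prod_ne_zero_aux (V : Finset ℤ) (i : ℤ) : ∏ j ∈ V.erase i, (i - j) ≠ 0 := by
  rw [Finset.prod_ne_zero_iff]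
  intro j hj
  exact sub_ne_zero.mpr (Finset.ne_of_mem_erase hj).symm

lemma wt_ne_zero (V : Finset ℤ) (i : ℤ) : wt V i ≠ 0 := by
  rw [wt, Finset.prod_ne_zero_iff]
  intro j _
  exact prod_ne_zero_aux V j

lemma wt_mul {V : Finset ℤ} {i : ℤ} (hi : i ∈ V) :
    wt V i * ∏ j ∈ V.erase i, (i - j) = wtot V := by
  rw [wt, wtot, Finset.prod_erase_mul _ _ hi]

lemma sum_wt_pow {V : Finset ℤ} (hV : V.card = 12) {k : ℕ} (hk : k < 11) :
    ∑ i ∈ V, wt V i * i ^ k = 0 := by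
  have hinj : Set.InjOn (fun i : ℤ => (i : ℚ)) (V : Set ℤ) :=
    fun a _ b _ h => Int.cast_injective (α := ℚ) h
  have h := Lagrange.coeff_eq_sum (s := V) (v := fun i : ℤ => (i : ℚ)) hinj (P := (X : ℚ[X]) ^ k) (by
    rw [degree_X_pow, hV]; exact_mod_cast (by omega))
  rw [hV, coeff_X_pow, if_neg (by omega)] at h
  have h2 : ((∑ i ∈ V, wt V i * i ^ k : ℤ) : ℚ) = 0 := by
    push_cast
    have h3 : ∀ i ∈ V, ((wt V i : ℤ) : ℚ) * (i : ℚ) ^ k
        = (wtot V : ℚ) * ((i : ℚ) ^ k / ∏ j ∈ V.erase i, ((i : ℚ) - (j : ℚ))) := by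
      intro i hi
      have h4 : (∏ j ∈ V.erase i, ((i : ℚ) - (j : ℚ))) ≠ 0 := by
        have := prod_ne_zero_aux V i
        exact_mod_cast this
      have h5 : ((wt V i : ℤ) : ℚ) * (∏ j ∈ V.erase i, ((i : ℚ) - (j : ℚ))) = (wtot V : ℚ) := by
        rw [← wt_mul hi]; push_cast; rfl
      rw [← h5]; field_simp
    rw [Finset.sum_congr rfl h3, ← Finset.mul_sum]
    simp only [eval_pow, eval_X] at h
    rw [← h, mul_zero]
  exact_mod_cast h2

lemma sum_wt_eval {R : Type*} [CommRing R] {V : Finset ℤ} (hV : V.card = 12) {G : R[X]}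
    (hG : G.natDegree < 11) : ∑ i ∈ V, ((wt V i : ℤ) : R) * G.eval ((i : ℤ) : R) = 0 := by
  have h1 : ∀ i ∈ V, ((wt V i : ℤ) : R) * G.eval ((i : ℤ) : R)
      = ∑ k ∈ Finset.range 11, G.coeff k * (((wt V i * i ^ k : ℤ)) : R) := by
    intro i _
    rw [eval_eq_sum_range' hG, Finset.mul_sum]
    apply Finset.sum_congr rfl
    intro k _
    push_cast; ring
  rw [Finset.sum_congr rfl h1, Finset.sum_comm]
  apply Finset.sum_eq_zero
  intro k hk
  rw [← Finset.mul_sum, ← Int.cast_sum, sum_wt_pow hV (Finset.mem_range.mp hk)]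
  simp

lemma abs_wt_le {V : Finset ℤ} (hV : V.card = 12) {S : ℤ}
    (h : ∀ i ∈ V, 0 ≤ i ∧ i ≤ S) {i : ℤ} (hi : i ∈ V) : |wt V i| ≤ S ^ 121 := by
  rw [wt, Finset.abs_prod]
  have h1 : ∀ i' ∈ V.erase i, |∏ j ∈ V.erase i', (i' - j)| ≤ S ^ 11 := by
    intro i' hi'
    have hi'' := Finset.mem_of_mem_erase hi'
    rw [Finset.abs_prod]
    calc ∏ j ∈ V.erase i', |i' - j| ≤ ∏ _j ∈ V.erase i', S := by
          apply Finset.prod_le_prod
          · intro j _; exact abs_nonneg _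
          · intro j hj
            have h2 := h i' hi''
            have h3 := h j (Finset.mem_of_mem_erase hj)
            rw [abs_le]; constructor <;> linarith
      _ = S ^ 11 := by
          rw [Finset.prod_const, Finset.card_erase_of_mem hi'', hV]
  calc ∏ i' ∈ V.erase i, |∏ j ∈ V.erase i', (i' - j)| ≤ ∏ _i' ∈ V.erase i, S ^ 11 := by
        apply Finset.prod_le_prod
        · intro j _; exact abs_nonneg _
        · exact h1
    _ = S ^ 121 := by
        rw [Finset.prod_const, Finset.card_erase_of_mem hi, hV, ← pow_mul]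

end Fermat.Agent.S52A
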