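import Mathlib
import Fermat.Agent.S52_asm.Quartic
import Fermat.Agent.S52_asm.Weights

set_option autoImplicit false

/-!
Bombieri–Pila style argument: if the quartic `Qv (A t) (B t) X` has an integer root for all
`t ∈ M ℤ` then it has a root in `ℚ[t]`.
-/

namespace Fermat.Agent.S52A

open Polynomial

lemma abs_eval_le (P : ℤ[X]) {d : ℕ} (hP : P.natDegree ≤ d) :
    ∃ c : ℤ, 0 ≤ c ∧ ∀ t : ℤ, |P.eval t| ≤ c * (1 + |t|) ^ d := by
  refine ⟨∑ k ∈ Finset.range (d + 1), |P.coeff k|, Finset.sum_nonneg (fun _ _ => abs_nonneg _), ?_⟩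
  intro t
  rw [eval_eq_sum_range' (Nat.lt_succ_of_le hP), Finset.sum_mul]
  refine (Finset.abs_sum_le_sum_abs _ _).trans (Finset.sum_le_sum ?_)
  intro k hk
  rw [abs_mul, abs_pow]
  apply mul_le_mul_of_nonneg_left _ (abs_nonneg _)
  have h0 : 0 ≤ |t| := abs_nonneg t
  calc |t| ^ k ≤ (1 + |t|) ^ k := pow_le_pow_left₀ h0 (by linarith) k
    _ ≤ (1 + |t|) ^ d := pow_le_pow_right₀ (by linarith) (by
        have := Finset.mem_range.mp hk; omega)

/-- size of an integer root -/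
lemma root_bound {a b x C T : ℤ} (hC : 0 ≤ C) (hT : 1 ≤ T) (ha : |a| ≤ C * T ^ 20)
    (hb : |b| ≤ C * T ^ 30) (h : Qv a b x = 0) : |x| ≤ (1 + 14 * C + 3 * C ^ 2) * T ^ 10 := by
  set Y := T ^ 10 with hY
  have hY1 : 1 ≤ Y := one_le_pow₀ hT
  have hY2 : T ^ 20 = Y ^ 2 := by rw [hY]; ring
  have hY3 : T ^ 30 = Y ^ 3 := by rw [hY]; ring
  rw [hY2] at ha
  rw [hY3] at hb
  simp only [Qv] at h
  have hx4 : |x| ^ 4 ≤ 6 * (C * Y ^ 2) * |x| ^ 2 + 8 * (C * Y ^ 3) * |x| + 3 * (C * Y ^ 2) ^ 2 := by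
    have e1 : x ^ 4 = 6 * a * x ^ 2 + 8 * b * x + 3 * a ^ 2 := by linear_combination h
    have e2 : |x| ^ 4 = |6 * a * x ^ 2 + 8 * b * x + 3 * a ^ 2| := by rw [← abs_pow, e1]
    rw [e2]
    calc |6 * a * x ^ 2 + 8 * b * x + 3 * a ^ 2|
        ≤ |6 * a * x ^ 2| + |8 * b * x| + |3 * a ^ 2| := by
          exact (abs_add_le _ _).trans (by linarith [abs_add_le (6 * a * x ^ 2) (8 * b * x)])
      _ = 6 * |a| * |x| ^ 2 + 8 * |b| * |x| + 3 * |a| ^ 2 := by
          rw [abs_mul, abs_mul, abs_mul, abs_mul, abs_mul, abs_pow, abs_pow]; norm_num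
      _ ≤ _ := by
          have hx0 : 0 ≤ |x| := abs_nonneg x
          have ha0 : 0 ≤ |a| := abs_nonneg a
          gcongr
  by_contra hcon
  push Not at hcon
  set Z := |x| with hZ
  have hZY : Y ≤ Z := by nlinarith
  have hYpos : 0 < Y := by linarith
  have hZpos : 0 < Z := by linarith
  have h1 : 6 * (C * Y ^ 2) * Z ^ 2 ≤ 6 * C * Y * Z ^ 3 := by
    have : 0 ≤ 6 * C * Y * Z ^ 2 * (Z - Y) := by
      apply mul_nonneg (by positivity) (by linarith)
    nlinarith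
  have h2 : 8 * (C * Y ^ 3) * Z ≤ 8 * C * Y * Z ^ 3 := by
    have h3 : Y ^ 2 ≤ Z ^ 2 := pow_le_pow_left₀ hYpos.le hZY 2
    have : 0 ≤ 8 * C * Y * Z * (Z ^ 2 - Y ^ 2) := by
      apply mul_nonneg (by positivity) (by linarith)
    nlinarith
  have h3 : 3 * (C * Y ^ 2) ^ 2 ≤ 3 * C ^ 2 * Y * Z ^ 3 := by
    have h3 : Y ^ 3 ≤ Z ^ 3 := pow_le_pow_left₀ hYpos.le hZY 3
    have : 0 ≤ 3 * C ^ 2 * Y * (Z ^ 3 - Y ^ 3) := by
      apply mul_nonneg (by positivity) (by linarith)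
    nlinarith
  have h4 : Z ^ 4 ≤ (14 * C + 3 * C ^ 2) * Y * Z ^ 3 := by nlinarith
  have h5 : (14 * C + 3 * C ^ 2) * Y * Z ^ 3 < Z * Z ^ 3 := by
    apply mul_lt_mul_of_pos_right _ (by positivity)
    nlinarith
  nlinarith

lemma zmod_nil {q K : ℕ} {z : ℤ} (h : (q : ℤ) ∣ z) : IsNilpotent ((z : ZMod (q ^ K))) := by
  obtain ⟨w, rfl⟩ := h
  refine ⟨K, ?_⟩
  push_cast
  rw [mul_pow]
  have : ((q : ZMod (q ^ K))) ^ K = 0 := by
    rw [← Nat.cast_pow, ZMod.natCast_self]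
  rw [this, zero_mul]

lemma zmod_unit {q K : ℕ} (hq : q.Prime) {z : ℤ} (h : ¬ (q : ℤ) ∣ z) :
    IsUnit ((z : ZMod (q ^ K))) := by
  have h1 : IsCoprime z (q : ℤ) := by
    rw [isCoprime_comm, (Nat.prime_iff_prime_int.mp hq).coprime_iff_not_dvd]; exact h
  obtain ⟨u, v, huv⟩ := h1.pow_right (n := K)
  have h2 : ((u : ℤ) : ZMod (q ^ K)) * (z : ZMod (q ^ K)) = 1 := by
    have h3 := congrArg (Int.cast : ℤ → ZMod (q ^ K)) huv
    push_cast at h3
    have h4 : ((q : ZMod (q ^ K))) ^ K = 0 := by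
      rw [← Nat.cast_pow, ZMod.natCast_self]
    rw [h4, mul_zero, add_zero] at h3
    exact h3
  exact IsUnit.of_mul_eq_one_right _ h2

theorem class_poly (A B : ℤ[X]) {q : ℕ} (hq : q.Prime)
    (hq6 : ¬ (q : ℤ) ∣ 6 * (A.coeff 0 ^ 3 - B.coeff 0 ^ 2)) (M : ℤ) {N : ℕ} (hN : 1 ≤ N)
    (x₀ : ℤ) (hx₀ : (q : ℤ) ∣ Qv (A.coeff 0) (B.coeff 0) x₀) :
    ∃ G : (ZMod (q ^ (11 * N)))[X], G.natDegree < 11 ∧ ∀ s x : ℤ, (q : ℤ) ∣ x - x₀ →
      Qv (A.eval (M * q ^ N * s)) (B.eval (M * q ^ N * s)) x = 0 →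
      (x : ZMod (q ^ (11 * N))) = G.eval ((s : ℤ) : ZMod (q ^ (11 * N))) := by
  set R := ZMod (q ^ (11 * N)) with hR
  set f : ℤ →+* R := Int.castRingHom R with hf
  have hfc : ∀ z : ℤ, f z = (z : R) := fun z => rfl
  have : Fact q.Prime := ⟨hq⟩
  have h1 : IsNilpotent (Qv ((A.map f).coeff 0) ((B.map f).coeff 0) (x₀ : R)) := by
    rw [coeff_map, coeff_map, ← hfc, ← map_Qv, hfc]
    exact zmod_nil hx₀
  have hd : ¬ (q : ℤ) ∣ Qd (A.coeff 0) (B.coeff 0) x₀ := by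
    intro h
    rw [← ZMod.intCast_zmod_eq_zero_iff_dvd] at h hx₀ hq6
    have e1 := map_Qd (Int.castRingHom (ZMod q)) (A.coeff 0) (B.coeff 0) x₀
    have e2 := map_Qv (Int.castRingHom (ZMod q)) (A.coeff 0) (B.coeff 0) x₀
    simp only [eq_intCast] at e1 e2
    rw [h] at e1
    rw [hx₀] at e2
    refine Qd_ne_zero (K := ZMod q) ?_ ?_ ?_ e2.symm e1.symm
    · intro h2
      apply hq6
      push_cast
      have : (6 : ZMod q) = 2 * 3 := by norm_num
      rw [this, h2]; ring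
    · intro h3
      apply hq6
      push_cast
      have : (6 : ZMod q) = 2 * 3 := by norm_num
      rw [this, h3]; ring
    · intro h4
      apply hq6
      push_cast
      rw [h4]; ring
  have h2 : IsUnit (Qd ((A.map f).coeff 0) ((B.map f).coeff 0) (x₀ : R)) := by
    rw [coeff_map, coeff_map, ← hfc, ← map_Qd, hfc]
    exact zmod_unit hq hd
  obtain ⟨G0, hG1, hG2, n, hG3⟩ := exists_trunc (A.map f) (B.map f) (x₀ : R) h1 h2
  refine ⟨G0.comp (C ((M * q ^ N : ℤ) : R) * X), ?_, ?_⟩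
  · calc (G0.comp (C ((M * q ^ N : ℤ) : R) * X)).natDegree
        ≤ G0.natDegree * (C ((M * q ^ N : ℤ) : R) * X).natDegree := natDegree_comp_le
      _ ≤ G0.natDegree * 1 := by
          apply Nat.mul_le_mul_left
          exact (natDegree_C_mul_le _ _).trans natDegree_X_le
      _ < 11 := by omega
  · intro s x hxx hroot
    set t : ℤ := M * q ^ N * s with ht
    have hqt : (q : ℤ) ∣ t := by
      rw [ht]
      exact Dvd.dvd.mul_right (Dvd.dvd.mul_left (dvd_pow_self _ (by omega)) _) _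
    have hτ : (C ((M * q ^ N : ℤ) : R) * X).eval ((s : ℤ) : R) = ((t : ℤ) : R) := by
      rw [eval_mul, eval_C, eval_X, ht, ← Int.cast_mul]
    rw [eval_comp, hτ]
    have hτ11 : ((t : ℤ) : R) ^ 11 = 0 := by
      rw [← Int.cast_pow]
      refine (ZMod.intCast_zmod_eq_zero_iff_dvd _ _).mpr ?_
      refine ⟨M ^ 11 * s ^ 11, ?_⟩
      rw [ht]; push_cast; ring
    have hA : (A.map f).eval ((t : ℤ) : R) = f (A.eval t) := by
      rw [← hfc, eval_map_apply]
    have hB : (B.map f).eval ((t : ℤ) : R) = f (B.eval t) := by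
      rw [← hfc, eval_map_apply]
    have r1 : Qv (f (A.eval t)) (f (B.eval t)) (G0.eval ((t : ℤ) : R)) = 0 := by
      rw [← hA, ← hB]
      have := map_Qv (evalRingHom ((t : ℤ) : R)) (A.map f) (B.map f) G0
      simp only [coe_evalRingHom] at this
      rw [← this]
      obtain ⟨H, hH⟩ := hG2
      rw [hH, eval_mul, eval_pow, eval_X, hτ11, zero_mul]
    have r2 : IsNilpotent (G0.eval ((t : ℤ) : R) - (x₀ : R)) := by
      refine ⟨n, ?_⟩
      obtain ⟨H, hH⟩ := hG3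
      have := congrArg (fun p => p.eval ((t : ℤ) : R)) hH
      simp only [eval_pow, eval_sub, eval_C, eval_mul, eval_X, hτ11, zero_mul] at this
      exact this
    have r3 : Qv (f (A.eval t)) (f (B.eval t)) ((x : ℤ) : R) = 0 := by
      rw [← hfc, ← map_Qv, hroot, map_zero]
    have r4 : IsNilpotent (((x : ℤ) : R) - G0.eval ((t : ℤ) : R)) := by
      have e : ((x : ℤ) : R) - G0.eval ((t : ℤ) : R)
        = ((x - x₀ : ℤ) : R) - (G0.eval ((t : ℤ) : R) - (x₀ : R)) := by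
        push_cast; ring
      rw [e]
      exact (Commute.all _ _).isNilpotent_sub (zmod_nil hxx) r2
    have hsub : ∀ P : ℤ[X], IsNilpotent (f (P.eval t) - f (P.coeff 0)) := by
      intro P
      rw [← map_sub, hfc]
      apply zmod_nil
      have := sub_dvd_eval_sub t 0 P
      rw [sub_zero, ← coeff_zero_eq_eval_zero] at this
      exact hqt.trans this
    have r5 : IsUnit (Qd (f (A.eval t)) (f (B.eval t)) (G0.eval ((t : ℤ) : R))) := by
      refine isUnit_Qd (hsub A) (hsub B) r2 ?_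
      rw [coeff_map, coeff_map] at h2
      exact h2
    exact root_unique r4 r1 r3 r5

end Fermat.Agent.S52A
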