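import Mathlib
import Fermat.Agent.S52_asm.BP

set_option autoImplicit false

/-!
Bombieri–Pila style argument, main theorem: if the quartic `Qv (A t) (B t) X` has an integer root
for all `t ∈ M ℤ` then it has a root in `ℚ[t]`.
-/

namespace Fermat.Agent.S52A

open Polynomial

lemma natDegree_Qv_le {K : Type*} [CommRing K] {A B P : K[X]} (hA : A.natDegree ≤ 20)
    (hB : B.natDegree ≤ 30) (hP : P.natDegree ≤ 10) : (Qv A B P).natDegree ≤ 40 := by
  unfold Qv
  have e6 : (6 : K[X]) = C 6 := (map_ofNat C 6).symm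
  have e8 : (8 : K[X]) = C 8 := (map_ofNat C 8).symm
  have e3 : (3 : K[X]) = C 3 := (map_ofNat C 3).symm
  rw [e6, e8, e3]
  have d1 : (P ^ 4).natDegree ≤ 40 := natDegree_pow_le_of_le 4 hP
  have d2 : (C 6 * A * P ^ 2).natDegree ≤ 40 :=
    natDegree_mul_le_of_le (m := 20) (n := 20) ((natDegree_C_mul_le _ _).trans hA)
      (natDegree_pow_le_of_le 2 hP)
  have d3 : (C 8 * B * P).natDegree ≤ 40 :=
    natDegree_mul_le_of_le (m := 30) (n := 10) ((natDegree_C_mul_le _ _).trans hB) hP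
  have d4 : (C 3 * A ^ 2).natDegree ≤ 40 :=
    (natDegree_C_mul_le _ _).trans (natDegree_pow_le_of_le 2 hA)
  have h1 := natDegree_sub_le_of_le (natDegree_sub_le_of_le (natDegree_sub_le_of_le d1 d2) d3) d4
  simpa using h1

theorem BP (A B : ℤ[X]) (hA : A.natDegree ≤ 20) (hB : B.natDegree ≤ 30)
    (hab : A.coeff 0 ^ 3 ≠ B.coeff 0 ^ 2) (M : ℤ) (hM : M ≠ 0)
    (H : ∀ s : ℤ, ∃ x : ℤ, Qv (A.eval (M * s)) (B.eval (M * s)) x = 0) :
    ∃ P : ℚ[X], P.natDegree ≤ 10 ∧
      Qv (A.map (Int.castRingHom ℚ)) (B.map (Int.castRingHom ℚ)) P = 0 := by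
  obtain ⟨cA, hcA0, hcA⟩ := abs_eval_le A hA
  obtain ⟨cB, hcB0, hcB⟩ := abs_eval_le B hB
  set Cc : ℤ := cA + cB with hCc
  have hCc0 : 0 ≤ Cc := by positivity
  set K0 : ℤ := 12 * 161 ^ 121 * ((1 + 14 * Cc + 3 * Cc ^ 2) * (1 + 161 * |M|) ^ 10) with hK0
  have hK00 : 0 ≤ K0 := by positivity
  obtain ⟨q, hqge, hq⟩ := Nat.exists_infinite_primes
    (K0.natAbs + (6 * (A.coeff 0 ^ 3 - B.coeff 0 ^ 2)).natAbs + 1)
  have hq6 : ¬ (q : ℤ) ∣ 6 * (A.coeff 0 ^ 3 - B.coeff 0 ^ 2) := by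
    intro h
    have h1 := Int.natAbs_dvd_natAbs.mpr h
    rw [Int.natAbs_natCast] at h1
    have h2 := Nat.le_of_dvd (Int.natAbs_pos.mpr (mul_ne_zero (by norm_num)
      (sub_ne_zero.mpr hab))) h1
    omega
  have hqK : K0 < (q : ℤ) := by
    have : (K0.natAbs : ℤ) = K0 := Int.natAbs_of_nonneg hK00
    omega
  have hq1 : (1 : ℤ) ≤ q := by exact_mod_cast hq.one_lt.le
  have : Fact q.Prime := ⟨hq⟩
  -- the roots
  choose x hx using fun s : ℤ => H (q * s)
  have hx' : ∀ s : ℤ, Qv (A.eval (M * q * s)) (B.eval (M * q * s)) (x s) = 0 := by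
    intro s; rw [mul_assoc]; exact hx s
  -- roots modulo `q`
  let p4 : (ZMod q)[X] := X ^ 4 - C (6 * (A.coeff 0 : ZMod q)) * X ^ 2
    - C (8 * (B.coeff 0 : ZMod q)) * X - C (3 * (A.coeff 0 : ZMod q) ^ 2)
  have hp4m : p4.natDegree = 4 := by
    simp only [p4]; compute_degree!
  have hp4 : p4 ≠ 0 := by
    intro h
    rw [h] at hp4m
    simp at hp4m
  have hp4e : ∀ z : ZMod q, p4.eval z = Qv (A.coeff 0 : ZMod q) (B.coeff 0 : ZMod q) z := by
    intro z
    simp [p4, Qv]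
  have hmod : ∀ s : ℤ, ((x s : ℤ) : ZMod q) ∈ p4.roots.toFinset := by
    intro s
    rw [Multiset.mem_toFinset, mem_roots hp4, IsRoot.def, hp4e]
    have h1 := congrArg (Int.castRingHom (ZMod q)) (hx' s)
    rw [map_Qv, map_zero] at h1
    have h2 : ∀ P : ℤ[X], Int.castRingHom (ZMod q) (P.eval (M * q * s))
        = Int.castRingHom (ZMod q) (P.coeff 0) := by
      intro P
      rw [← sub_eq_zero, ← map_sub, eq_intCast, ZMod.intCast_zmod_eq_zero_iff_dvd]
      have h3 := sub_dvd_eval_sub (M * q * s) 0 P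
      rw [sub_zero, ← coeff_zero_eq_eval_zero] at h3
      exact (Dvd.intro_left M rfl |>.mul_right s).trans h3
    rw [h2, h2] at h1
    exact h1
  have hcard4 : p4.roots.toFinset.card ≤ 4 := by
    calc p4.roots.toFinset.card ≤ Multiset.card p4.roots := Multiset.toFinset_card_le _
      _ ≤ p4.natDegree := card_roots' _
      _ = 4 := hp4m
  obtain ⟨y, -, hy⟩ := Finset.exists_lt_card_fiber_of_mul_lt_card_of_maps_to
    (s := Finset.Icc (1 : ℤ) 161) (t := p4.roots.toFinset) (f := fun s => ((x s : ℤ) : ZMod q))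
    (n := 40) (fun s _ => hmod s) (by rw [Int.card_Icc]; norm_num; omega)
  set T : Finset ℤ := (Finset.Icc (1 : ℤ) 161).filter fun s => ((x s : ℤ) : ZMod q) = y with hT
  have hTmem : ∀ s ∈ T, (1 ≤ s ∧ s ≤ 161) ∧ ((x s : ℤ) : ZMod q) = y := by
    intro s hs
    rw [hT, Finset.mem_filter, Finset.mem_Icc] at hs
    exact hs
  -- pick a base point
  obtain ⟨s₀, hs₀⟩ : T.Nonempty := by
    rw [← Finset.card_pos]; omega
  have hx0 : (q : ℤ) ∣ Qv (A.coeff 0) (B.coeff 0) (x s₀) := by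
    rw [← ZMod.intCast_zmod_eq_zero_iff_dvd]
    have h1 := hmod s₀
    rw [Multiset.mem_toFinset, mem_roots hp4, IsRoot.def, hp4e] at h1
    have h2 := map_Qv (Int.castRingHom (ZMod q)) (A.coeff 0) (B.coeff 0) (x s₀)
    simp only [eq_intCast] at h2
    rw [h2]; exact h1
  obtain ⟨G, hG1, hG2⟩ := class_poly A B hq hq6 M (N := 1) le_rfl (x s₀) hx0
  have hG3 : ∀ s ∈ T, ((x s : ℤ) : ZMod (q ^ (11 * 1))) = G.eval ((s : ℤ) : ZMod (q ^ (11 * 1))) := by
    intro s hs
    apply hG2 s (x s)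
    · rw [← ZMod.intCast_zmod_eq_zero_iff_dvd, Int.cast_sub, (hTmem s hs).2, (hTmem s₀ hs₀).2,
        sub_self]
    · rw [pow_one]; exact hx' s
  -- bound on `x s`
  have hxb : ∀ s ∈ T, |x s| ≤ ((1 + 14 * Cc + 3 * Cc ^ 2) * (1 + 161 * |M|) ^ 10) * (q : ℤ) ^ 10 := by
    intro s hs
    obtain ⟨⟨hs1, hs2⟩, -⟩ := hTmem s hs
    have hM0 : 0 ≤ |M| := abs_nonneg M
    have ht0 : 0 ≤ |M * q * s| := abs_nonneg _
    have ht : 1 + |M * q * s| ≤ (1 + 161 * |M|) * q := by
      rw [abs_mul, abs_mul, abs_of_nonneg (by positivity : (0 : ℤ) ≤ (q : ℤ)),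
        abs_of_nonneg (by linarith : (0 : ℤ) ≤ s)]
      have : |M| * q * s ≤ |M| * q * 161 := by
        apply mul_le_mul_of_nonneg_left hs2 (by positivity)
      nlinarith
    have h1 : |A.eval (M * q * s)| ≤ Cc * (1 + |M * q * s|) ^ 20 := by
      refine (hcA _).trans ?_
      apply mul_le_mul_of_nonneg_right _ (by positivity)
      rw [hCc]; linarith
    have h2 : |B.eval (M * q * s)| ≤ Cc * (1 + |M * q * s|) ^ 30 := by
      refine (hcB _).trans ?_
      apply mul_le_mul_of_nonneg_right _ (by positivity)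
      rw [hCc]; linarith
    have h3 := root_bound hCc0 (by linarith : (1 : ℤ) ≤ 1 + |M * q * s|) h1 h2 (hx' s)
    calc |x s| ≤ (1 + 14 * Cc + 3 * Cc ^ 2) * (1 + |M * q * s|) ^ 10 := h3
      _ ≤ (1 + 14 * Cc + 3 * Cc ^ 2) * ((1 + 161 * |M|) * q) ^ 10 := by
          apply mul_le_mul_of_nonneg_left _ (by positivity)
          exact pow_le_pow_left₀ (by linarith) ht 10
      _ = _ := by ring
  -- the linear relations
  have hrel : ∀ V : Finset ℤ, V ⊆ T → V.card = 12 → ∑ i ∈ V, wt V i * x i = 0 := by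
    intro V hVT hV
    have h1 : ((q : ℤ) ^ 11) ∣ ∑ i ∈ V, wt V i * x i := by
      have h2 : ((∑ i ∈ V, wt V i * x i : ℤ) : ZMod (q ^ (11 * 1))) = 0 := by
        rw [Int.cast_sum, ← sum_wt_eval hV hG1]
        apply Finset.sum_congr rfl
        intro i hi
        rw [Int.cast_mul, hG3 i (hVT hi)]
      have h3 := (ZMod.intCast_zmod_eq_zero_iff_dvd _ _).mp h2
      simpa using h3
    apply Int.eq_zero_of_abs_lt_dvd h1
    calc |∑ i ∈ V, wt V i * x i| ≤ ∑ i ∈ V, |wt V i * x i| := Finset.abs_sum_le_sum_abs _ _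
      _ ≤ ∑ _i ∈ V, 161 ^ 121 * (((1 + 14 * Cc + 3 * Cc ^ 2) * (1 + 161 * |M|) ^ 10)
            * (q : ℤ) ^ 10) := by
          apply Finset.sum_le_sum
          intro i hi
          rw [abs_mul]
          apply mul_le_mul _ (hxb i (hVT hi)) (abs_nonneg _) (by positivity)
          apply abs_wt_le hV _ hi
          intro j hj
          have := (hTmem j (hVT hj)).1
          constructor <;> linarith
      _ = K0 * (q : ℤ) ^ 10 := by
          rw [Finset.sum_const, hV, hK0]; ring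
      _ < q * (q : ℤ) ^ 10 := by
          apply mul_lt_mul_of_pos_right hqK (by positivity)
      _ = (q : ℤ) ^ 11 := by ring
  -- interpolation
  obtain ⟨V₀, hV₀T, hV₀⟩ := Finset.exists_subset_card_eq (show 11 ≤ T.card by omega)
  have hinj : Set.InjOn (fun i : ℤ => (i : ℚ)) (V₀ : Set ℤ) :=
    fun a _ b _ h => Int.cast_injective (α := ℚ) h
  set Gq : ℚ[X] := Lagrange.interpolate V₀ (fun i : ℤ => (i : ℚ)) (fun i => (x i : ℚ)) with hGq
  have hGqdeg : Gq.degree < 11 := by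
    have := Lagrange.degree_interpolate_lt (s := V₀) (v := fun i : ℤ => (i : ℚ))
      (r := fun i => (x i : ℚ)) hinj
    rw [hV₀] at this
    exact this
  have hGqnat : Gq.natDegree < 11 := by
    rcases eq_or_ne Gq 0 with h0 | h0
    · rw [h0]; simp
    · exact (natDegree_lt_iff_degree_lt h0).mpr hGqdeg
  have hGqV : ∀ i ∈ V₀, Gq.eval (i : ℚ) = (x i : ℚ) := by
    intro i hi
    exact Lagrange.eval_interpolate_at_node (fun i => (x i : ℚ)) hinj hi
  have hGqT : ∀ j ∈ T, Gq.eval (j : ℚ) = (x j : ℚ) := by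
    intro j hj
    by_cases hjV : j ∈ V₀
    · exact hGqV j hjV
    · have hV : (insert j V₀).card = 12 := by rw [Finset.card_insert_of_notMem hjV, hV₀]
      have hVT : insert j V₀ ⊆ T := by
        intro z hz
        rcases Finset.mem_insert.mp hz with rfl | h
        · exact hj
        · exact hV₀T h
      have h1 := hrel _ hVT hV
      have h1' : ∑ i ∈ insert j V₀, ((wt (insert j V₀) i : ℤ) : ℚ) * (x i : ℚ) = 0 := by
        exact_mod_cast h1
      have h2 := sum_wt_eval (R := ℚ) hV hGqnat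
      rw [Finset.sum_insert hjV] at h1' h2
      have h3 : ∑ i ∈ V₀, ((wt (insert j V₀) i : ℤ) : ℚ) * Gq.eval (i : ℚ)
          = ∑ i ∈ V₀, ((wt (insert j V₀) i : ℤ) : ℚ) * (x i : ℚ) :=
        Finset.sum_congr rfl (fun i hi => by rw [hGqV i hi])
      have h4 : ((wt (insert j V₀) j : ℤ) : ℚ) * (Gq.eval (j : ℚ) - (x j : ℚ)) = 0 := by
        rw [h3] at h2
        linear_combination h2 - h1'
      have h5 : ((wt (insert j V₀) j : ℤ) : ℚ) ≠ 0 := by
        exact_mod_cast wt_ne_zero _ _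
      exact sub_eq_zero.mp ((mul_eq_zero.mp h4).resolve_left h5)
  -- the polynomial identity
  set c : ℚ := (M : ℚ) * (q : ℚ) with hc
  have hc0 : c ≠ 0 := by
    rw [hc]
    apply mul_ne_zero
    · exact_mod_cast hM
    · exact_mod_cast hq.ne_zero
  set φ := Int.castRingHom ℚ with hφ
  set F : ℚ[X] := Qv ((A.map φ).comp (C c * X)) ((B.map φ).comp (C c * X)) Gq with hF
  have hcomp : ∀ (P : ℚ[X]) (d : ℕ) (e : ℚ), P.natDegree ≤ d → (P.comp (C e * X)).natDegree ≤ d := by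
    intro P d e hP
    calc (P.comp (C e * X)).natDegree ≤ P.natDegree * (C e * X).natDegree := natDegree_comp_le
      _ ≤ P.natDegree * 1 := by
          apply Nat.mul_le_mul_left
          exact (natDegree_C_mul_le _ _).trans natDegree_X_le
      _ ≤ d := by omega
  have hFdeg : F.natDegree ≤ 40 := by
    apply natDegree_Qv_le
    · exact hcomp _ _ _ (natDegree_map_le.trans hA)
    · exact hcomp _ _ _ (natDegree_map_le.trans hB)
    · omega
  have hF0 : F = 0 := by
    apply eq_zero_of_natDegree_lt_card_of_eval_eq_zero' F (T.image (fun i : ℤ => (i : ℚ)))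
    · intro z hz
      obtain ⟨s, hs, rfl⟩ := Finset.mem_image.mp hz
      have h1 := map_Qv (evalRingHom ((s : ℤ) : ℚ)) ((A.map φ).comp (C c * X))
        ((B.map φ).comp (C c * X)) Gq
      simp only [coe_evalRingHom] at h1
      rw [hF, h1, hGqT s hs]
      have h2 : ∀ P : ℤ[X], ((P.map φ).comp (C c * X)).eval ((s : ℤ) : ℚ)
          = φ (P.eval (M * q * s)) := by
        intro P
        rw [eval_comp, ← eval_map_apply]
        congr 1
        simp [hc, hφ]
      rw [h2, h2]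
      have h3 : ((x s : ℤ) : ℚ) = φ (x s) := rfl
      rw [h3, ← map_Qv, hx' s, map_zero]
    · rw [Finset.card_image_of_injective _ (Int.cast_injective (α := ℚ))]
      omega
  refine ⟨Gq.comp (C c⁻¹ * X), hcomp _ _ _ (by omega), ?_⟩
  have h1 := map_Qv (compRingHom (C c⁻¹ * X : ℚ[X])) ((A.map φ).comp (C c * X))
        ((B.map φ).comp (C c * X)) Gq
  simp only [coe_compRingHom_apply] at h1
  rw [← hF, hF0, zero_comp] at h1
  have h2 : ∀ P : ℚ[X], (P.comp (C c * X)).comp (C c⁻¹ * X) = P := by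
    intro P
    rw [comp_assoc]
    have : (C c * X : ℚ[X]).comp (C c⁻¹ * X) = X := by
      simp only [mul_comp, C_comp, X_comp]
      rw [← mul_assoc, ← C_mul, mul_inv_cancel₀ hc0, C_1, one_mul]
    rw [this, comp_X]
  rw [h2, h2] at h1
  exact h1.symm

end Fermat.Agent.S52A
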