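import Mathlib
import Fermat.Agent.S52_asm.Quartic

set_option autoImplicit false

/-!
The quartic `Qv C4 C6 X` has no root in `K[t]`, if `C4³ - C6² = δ D⁵`, ...
-/

namespace Fermat.Agent.S52A

open Polynomial

theorem quartic_id {R : Type*} [CommRing R] {a b P : R} (h : Qv a b P = 0) :
    64 * (a ^ 3 - b ^ 2) * P ^ 2 = (P ^ 2 - a) ^ 3 * (9 * a - P ^ 2) := by
  simp only [Qv] at h
  linear_combination ((P ^ 4 - 6 * a * P ^ 2 - 3 * a ^ 2) + 8 * b * P) * h

theorem no_root_abstract {K : Type*} [Field K] [CharZero K] {D C4 C6 P : K[X]} {δ : K}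
    (hδ : δ ≠ 0) (h1 : C4 ^ 3 - C6 ^ 2 = C δ * D ^ 5)
    (h4 : 3 * D * derivative C4 - 5 * derivative D * C4 = 60 * C6)
    (hcop : IsCoprime D C4) (hD : 5 ≤ D.natDegree) (hC4 : C4.natDegree ≤ 20)
    (hP : P.natDegree ≤ 10) : Qv C4 C6 P ≠ 0 := by
  intro hroot
  have hD0 : D ≠ 0 := by
    rintro rfl
    simp at hD
  have key : 64 * (C δ * D ^ 5) * P ^ 2 = (P ^ 2 - C4) ^ 3 * (9 * C4 - P ^ 2) := by
    rw [← h1]; exact quartic_id hroot
  have hnum : ∀ n : ℕ, n ≠ 0 → IsUnit ((n : K[X])) := by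
    intro n hn
    have : ((n : K[X])) = C (n : K) := by simp
    rw [this]
    exact isUnit_C.mpr (isUnit_iff_ne_zero.mpr (by exact_mod_cast hn))
  have hC : ∀ π : K[X], Irreducible π → π ∣ D → ¬ π ∣ C4 := by
    intro π hπ hd hc
    exact hπ.not_isUnit (hcop.isUnit_of_dvd' hd hc)
  -- a multiple of a prime by units
  have hnumdvd : ∀ (π : K[X]) (n : ℕ) (Q : K[X]), n ≠ 0 → π ∣ (n : K[X]) * Q → π ∣ Q := by
    intro π n Q hn h
    exact ((hnum n hn).dvd_mul_left).mp h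
  have hsq : ∀ π : K[X], Irreducible π → ∀ E : K[X], D = π * E → ¬ π ∣ E := by
    rintro π hπ E hE ⟨F, rfl⟩
    have hd : π ∣ D := ⟨_, hE⟩
    have hd' : π ∣ derivative D := by
      rw [hE, derivative_mul, derivative_mul]
      refine ⟨derivative π * F + (derivative π * F + π * derivative F), ?_⟩
      ring
    have h6 : π ∣ C6 := by
      apply hnumdvd π 60 C6 (by norm_num)
      have : ((60 : ℕ) : K[X]) * C6 = 3 * D * derivative C4 - 5 * derivative D * C4 := by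
        rw [h4]; norm_num
      rw [this]
      apply dvd_sub
      · exact Dvd.dvd.mul_right (Dvd.dvd.mul_left hd _) _
      · exact Dvd.dvd.mul_right (Dvd.dvd.mul_left hd' _) _
    have h5 : π ∣ C4 ^ 3 := by
      have : C4 ^ 3 = C δ * D ^ 5 + C6 ^ 2 := by rw [← h1]; ring
      rw [this]
      exact dvd_add (Dvd.dvd.mul_left (hd.trans (dvd_pow_self _ (by norm_num))) _)
        (h6.trans (dvd_pow_self _ (by norm_num)))
    exact hC π hπ hd (hπ.prime.dvd_of_dvd_pow h5)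
  have hPn : ∀ π : K[X], Irreducible π → π ∣ D → ¬ π ∣ P := by
    intro π hπ hd hp
    have h5 : π ∣ (P ^ 2 - C4) ^ 3 * (9 * C4 - P ^ 2) := by
      rw [← key]
      exact Dvd.dvd.mul_left (hp.trans (dvd_pow_self _ (by norm_num))) _
    have hp2 : π ∣ P ^ 2 := hp.trans (dvd_pow_self _ (by norm_num))
    rcases hπ.prime.dvd_or_dvd h5 with h6 | h6
    · have h7 := hπ.prime.dvd_of_dvd_pow h6
      exact hC π hπ hd (by simpa using dvd_sub hp2 h7)
    · have h7 : π ∣ ((9 : ℕ) : K[X]) * C4 := by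
        have := dvd_add h6 hp2
        simpa using this
      exact hC π hπ hd (hnumdvd π 9 C4 (by norm_num) h7)
  have h9 : ∀ π : K[X], Irreducible π → π ∣ D → π ∣ P ^ 2 - C4 → ¬ π ∣ 9 * C4 - P ^ 2 := by
    intro π hπ hd h6 h7
    have h8 : π ∣ ((8 : ℕ) : K[X]) * C4 := by
      have := dvd_add h6 h7
      have e : P ^ 2 - C4 + (9 * C4 - P ^ 2) = ((8 : ℕ) : K[X]) * C4 := by push_cast; ring
      rwa [e] at this
    exact hC π hπ hd (hnumdvd π 8 C4 (by norm_num) h8)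
  have hu64 : IsUnit ((64 : K[X]) * C δ) := by
    have := hnum 64 (by norm_num)
    push_cast at this
    exact this.mul (isUnit_C.mpr (isUnit_iff_ne_zero.mpr hδ))
  have hQ : ∀ π : K[X], Irreducible π → π ∣ D → ¬ π ∣ P ^ 2 - C4 := by
    intro π hπ hd h6
    obtain ⟨E, hE⟩ := hd
    obtain ⟨u, hu⟩ := h6
    have hπ0 : π ≠ 0 := hπ.ne_zero
    have e1 : (64 * C δ) * (π ^ 2 * E ^ 5 * P ^ 2) = u ^ 3 * (9 * C4 - P ^ 2) := by
      have : π ^ 3 * ((64 * C δ) * (π ^ 2 * E ^ 5 * P ^ 2)) = π ^ 3 * (u ^ 3 * (9 * C4 - P ^ 2)) := by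
        rw [hu, hE] at key
        linear_combination key
      exact mul_left_cancel₀ (pow_ne_zero 3 hπ0) this
    have h10 : π ∣ u := by
      have h11 : π ∣ u ^ 3 * (9 * C4 - P ^ 2) := by
        rw [← e1]
        exact Dvd.dvd.mul_left (Dvd.dvd.mul_right (Dvd.dvd.mul_right
          (dvd_pow_self _ (by norm_num)) _) _) _
      rcases hπ.prime.dvd_or_dvd h11 with h12 | h12
      · exact hπ.prime.dvd_of_dvd_pow h12
      · exact absurd h12 (h9 π hπ ⟨E, hE⟩ ⟨u, hu⟩)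
    obtain ⟨w, rfl⟩ := h10
    have e2 : (64 * C δ) * (E ^ 5 * P ^ 2) = π * (w ^ 3 * (9 * C4 - P ^ 2)) := by
      have : π ^ 2 * ((64 * C δ) * (E ^ 5 * P ^ 2)) = π ^ 2 * (π * (w ^ 3 * (9 * C4 - P ^ 2))) := by
        linear_combination e1
      exact mul_left_cancel₀ (pow_ne_zero 2 hπ0) this
    have h13 : π ∣ E ^ 5 * P ^ 2 := (hu64.dvd_mul_left).mp ⟨_, e2⟩
    rcases hπ.prime.dvd_or_dvd h13 with h14 | h14
    · exact hsq π hπ E hE (hπ.prime.dvd_of_dvd_pow h14)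
    · exact hPn π hπ ⟨E, hE⟩ (hπ.prime.dvd_of_dvd_pow h14)
  have hcop2 : IsCoprime D (P ^ 2 - C4) := by
    apply isCoprime_of_irreducible_dvd
    · rintro ⟨h, -⟩; exact hD0 h
    · intro z hz hzD; exact hQ z hz hzD
  have hdvd : D ^ 5 ∣ 9 * C4 - P ^ 2 := by
    have h5 : D ^ 5 ∣ (P ^ 2 - C4) ^ 3 * (9 * C4 - P ^ 2) := by
      rw [← key]
      refine ⟨64 * C δ * P ^ 2, by ring⟩
    exact (hcop2.pow (m := 5) (n := 3)).dvd_of_dvd_mul_left h5
  have hz : 9 * C4 - P ^ 2 = 0 := by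
    by_contra hne
    have h5 := natDegree_le_of_dvd hdvd hne
    rw [natDegree_pow] at h5
    have e9 : (9 : K[X]) = C 9 := (map_ofNat C 9).symm
    have h6 : (9 * C4 - P ^ 2).natDegree ≤ 20 := by
      rw [e9]
      have := natDegree_sub_le_of_le ((natDegree_C_mul_le (9 : K) C4).trans hC4)
        (natDegree_pow_le_of_le 2 hP)
      simpa using this
    omega
  rw [hz, mul_zero] at key
  have hP0 : P = 0 := by
    have h5 : C δ ≠ 0 := by rw [Ne, C_eq_zero]; exact hδ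
    have h6 : (64 : K[X]) ≠ 0 := by
      have := (hnum 64 (by norm_num)).ne_zero
      exact_mod_cast this
    have h7 := mul_eq_zero.mp key
    rcases h7 with h7 | h7
    · exact absurd h7 (mul_ne_zero h6 (mul_ne_zero h5 (pow_ne_zero 5 hD0)))
    · exact pow_eq_zero_iff (two_ne_zero) |>.mp h7
  have hC40 : C4 = 0 := by
    rw [hP0] at hz
    have h5 : ((9 : ℕ) : K[X]) * C4 = 0 := by
      rw [← hz]; push_cast; ring
    exact (mul_eq_zero.mp h5).resolve_left (hnum 9 (by norm_num)).ne_zero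
  rw [hC40, isCoprime_zero_right] at hcop
  have := natDegree_eq_zero_of_isUnit hcop
  omega

end Fermat.Agent.S52A
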