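import Mathlib
import Fermat.Agent.S52.Forms
import Fermat.Agent.S52_asm.BP2
import Fermat.Agent.S52_asm.NoRoot
import Fermat.Agent.S52_asm.Ident

set_option autoImplicit false

/-!
Existence of parameters `t ∈ Mℤ` such that the quartic of the curve `E_{C4p, C6p}` has no integer
root.
-/

namespace Fermat.Agent.S52A

open Polynomial Fermat.Agent.S52

section deg

variable {R : Type*} [CommRing R] (a b : R)

lemma Dp_expand : Dp (C a) (C b) (X : R[X]) =
    C (Dpc0 a b) + C (Dpc2 a b) * X ^ 2 + C (Dpc3 a b) * X ^ 3 + C (Dpc4 a b) * X ^ 4 +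
      C (Dpc5 a b) * X ^ 5 + C (Dpc6 a b) * X ^ 6 + C (Dpc7 a b) * X ^ 7 +
      C (Dpc8 a b) * X ^ 8 + C (Dpc9 a b) * X ^ 9 + C (Dpc10 a b) * X ^ 10 +
      C (Dpc11 a b) * X ^ 11 + C (Dpc12 a b) * X ^ 12 := by
  simp only [Dp, Dpc0, Dpc2, Dpc3, Dpc4, Dpc5, Dpc6, Dpc7, Dpc8, Dpc9, Dpc10, Dpc11, Dpc12,
    map_add, map_sub, map_mul, map_pow, map_neg, map_ofNat, map_one]

lemma C4p_expand : C4p (C a) (C b) (X : R[X]) =
    C (C4pc0 a b) + C (C4pc1 a b) * X + C (C4pc2 a b) * X ^ 2 + C (C4pc3 a b) * X ^ 3 +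
      C (C4pc4 a b) * X ^ 4 + C (C4pc5 a b) * X ^ 5 + C (C4pc6 a b) * X ^ 6 +
      C (C4pc7 a b) * X ^ 7 + C (C4pc8 a b) * X ^ 8 + C (C4pc9 a b) * X ^ 9 +
      C (C4pc10 a b) * X ^ 10 + C (C4pc11 a b) * X ^ 11 + C (C4pc12 a b) * X ^ 12 +
      C (C4pc13 a b) * X ^ 13 + C (C4pc14 a b) * X ^ 14 + C (C4pc15 a b) * X ^ 15 +
      C (C4pc16 a b) * X ^ 16 + C (C4pc17 a b) * X ^ 17 + C (C4pc18 a b) * X ^ 18 +
      C (C4pc19 a b) * X ^ 19 + C (C4pc20 a b) * X ^ 20 := by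
  simp only [C4p, C4pc0, C4pc1, C4pc2, C4pc3, C4pc4, C4pc5, C4pc6, C4pc7, C4pc8, C4pc9, C4pc10,
      C4pc11, C4pc12, C4pc13, C4pc14, C4pc15, C4pc16, C4pc17, C4pc18, C4pc19, C4pc20,
    map_add, map_sub, map_mul, map_pow, map_neg, map_ofNat]

lemma C6p_expand : C6p (C a) (C b) (X : R[X]) =
    C (C6pc0 a b) + C (C6pc1 a b) * X + C (C6pc2 a b) * X ^ 2 + C (C6pc3 a b) * X ^ 3 +
      C (C6pc4 a b) * X ^ 4 + C (C6pc5 a b) * X ^ 5 + C (C6pc6 a b) * X ^ 6 +
      C (C6pc7 a b) * X ^ 7 + C (C6pc8 a b) * X ^ 8 + C (C6pc9 a b) * X ^ 9 +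
      C (C6pc10 a b) * X ^ 10 + C (C6pc11 a b) * X ^ 11 + C (C6pc12 a b) * X ^ 12 +
      C (C6pc13 a b) * X ^ 13 + C (C6pc14 a b) * X ^ 14 + C (C6pc15 a b) * X ^ 15 +
      C (C6pc16 a b) * X ^ 16 + C (C6pc17 a b) * X ^ 17 + C (C6pc18 a b) * X ^ 18 +
      C (C6pc19 a b) * X ^ 19 + C (C6pc20 a b) * X ^ 20 + C (C6pc21 a b) * X ^ 21 +
      C (C6pc22 a b) * X ^ 22 + C (C6pc23 a b) * X ^ 23 + C (C6pc24 a b) * X ^ 24 +
      C (C6pc25 a b) * X ^ 25 + C (C6pc26 a b) * X ^ 26 + C (C6pc27 a b) * X ^ 27 +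
      C (C6pc28 a b) * X ^ 28 + C (C6pc29 a b) * X ^ 29 + C (C6pc30 a b) * X ^ 30 := by
  simp only [C6p, C6pc0, C6pc1, C6pc2, C6pc3, C6pc4, C6pc5, C6pc6, C6pc7, C6pc8, C6pc9, C6pc10,
      C6pc11, C6pc12, C6pc13, C6pc14, C6pc15, C6pc16, C6pc17, C6pc18, C6pc19, C6pc20,
      C6pc21, C6pc22, C6pc23, C6pc24, C6pc25, C6pc26, C6pc27, C6pc28, C6pc29, C6pc30,
    map_add, map_sub, map_mul, map_pow, map_neg, map_ofNat]


lemma natDegree_C4p : (C4p (C a) (C b) (X : R[X])).natDegree ≤ 20 := by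
  rw [C4p_expand]; compute_degree

lemma natDegree_C6p : (C6p (C a) (C b) (X : R[X])).natDegree ≤ 30 := by
  rw [C6p_expand]; compute_degree

lemma coeff5_Dp : (Dp (C a) (C b) (X : R[X])).coeff 5 = Dpc5 a b := by
  rw [Dp_expand]
  simp only [coeff_add, coeff_C_mul, coeff_X_pow, coeff_C]
  norm_num

lemma coeff6_Dp : (Dp (C a) (C b) (X : R[X])).coeff 6 = Dpc6 a b := by
  rw [Dp_expand]
  simp only [coeff_add, coeff_C_mul, coeff_X_pow, coeff_C]
  norm_num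

lemma coeff0_C4p : (C4p (C a) (C b) (X : R[X])).coeff 0 = a := by
  rw [C4p_expand]
  simp [C4pc0]

lemma coeff0_C6p : (C6p (C a) (C b) (X : R[X])).coeff 0 = b := by
  rw [C6p_expand]
  simp [C6pc0]

lemma eval_C4p (t : R) : (C4p (C a) (C b) (X : R[X])).eval t = C4p a b t := by
  have := map_C4p (evalRingHom t) (C a) (C b) (X : R[X])
  simpa using this

lemma eval_C6p (t : R) : (C6p (C a) (C b) (X : R[X])).eval t = C6p a b t := by
  have := map_C6p (evalRingHom t) (C a) (C b) (X : R[X])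
  simpa using this

lemma map_C4p_poly {S : Type*} [CommRing S] (f : R →+* S) :
    (C4p (C a) (C b) (X : R[X])).map f = C4p (C (f a)) (C (f b)) (X : S[X]) := by
  have := map_C4p (mapRingHom f) (C a) (C b) (X : R[X])
  simpa using this

lemma map_C6p_poly {S : Type*} [CommRing S] (f : R →+* S) :
    (C6p (C a) (C b) (X : R[X])).map f = C6p (C (f a)) (C (f b)) (X : S[X]) := by
  have := map_C6p (mapRingHom f) (C a) (C b) (X : R[X])
  simpa using this

lemma natDegree_Dp {K : Type*} [Field K] [CharZero K] {a b : K} (hab : a ^ 3 ≠ b ^ 2) :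
    5 ≤ (Dp (C a) (C b) (X : K[X])).natDegree := by
  by_contra hlt
  push Not at hlt
  have h5 := coeff_eq_zero_of_natDegree_lt (p := Dp (C a) (C b) (X : K[X])) (n := 5) hlt
  have h6 := coeff_eq_zero_of_natDegree_lt (p := Dp (C a) (C b) (X : K[X])) (n := 6) (by omega)
  rw [coeff5_Dp, Dpc5] at h5
  rw [coeff6_Dp, Dpc6] at h6
  have hab0 : a = 0 ∨ b = 0 := by
    rcases mul_eq_zero.mp h5 with h | h
    · rcases mul_eq_zero.mp h with h | h
      · norm_num at h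
      · exact Or.inl h
    · exact Or.inr h
  apply hab
  rcases hab0 with h | h
  · subst h
    have : b ^ 2 = 0 := by
      have h7 : (10560 : K) * b ^ 2 = 0 := by linear_combination -h6
      rcases mul_eq_zero.mp h7 with h8 | h8
      · norm_num at h8
      · exact h8
    rw [this]; ring
  · subst h
    have : a ^ 3 = 0 := by
      have h7 : (5940 : K) * a ^ 3 = 0 := by linear_combination h6
      rcases mul_eq_zero.mp h7 with h8 | h8
      · norm_num at h8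
      · exact h8
    rw [this]; ring

end deg

/-- the property (I2) of the forms -/
def FormsCoprime : Prop :=
  ∀ (K : Type) [Field K] (a b t : K), (30 : K) ≠ 0 → a ^ 3 ≠ b ^ 2 → Dp a b t = 0 →
    C4p a b t ≠ 0

theorem exists_no_root (I2 : FormsCoprime) (a b : ℤ) (hab : a ^ 3 ≠ b ^ 2) (M : ℤ) (hM : M ≠ 0) :
    ∃ s : ℤ, ∀ x : ℤ, Qv (C4p a b (M * s)) (C6p a b (M * s)) x ≠ 0 := by
  by_contra hcon
  push Not at hcon
  obtain ⟨P, hP, hroot⟩ := BP (C4p (C a) (C b) X) (C6p (C a) (C b) X) (natDegree_C4p a b)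
    (natDegree_C6p a b) (by rw [coeff0_C4p, coeff0_C6p]; exact hab) M hM (by
      intro s
      rw [eval_C4p, eval_C6p]
      exact hcon s)
  rw [map_C4p_poly, map_C6p_poly] at hroot
  have habQ : ((Int.castRingHom ℚ) a) ^ 3 ≠ ((Int.castRingHom ℚ) b) ^ 2 := by
    rw [← map_pow, ← map_pow]
    intro h
    exact hab ((Int.castRingHom ℚ).injective_int h)
  set a' : ℚ := (Int.castRingHom ℚ) a
  set b' : ℚ := (Int.castRingHom ℚ) b
  refine no_root_abstract (D := Dp (C a') (C b') X) (δ := a' ^ 3 - b' ^ 2)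
    (sub_ne_zero.mpr habQ) ?_ (forms_wronsk a' b') ?_ (natDegree_Dp habQ) (natDegree_C4p a' b') hP
    hroot
  · rw [forms_rel]
    simp only [map_sub, map_pow]
  · rw [isCoprime_iff_aeval_ne_zero_of_isAlgClosed ℚ (AlgebraicClosure ℚ)]
    intro z
    by_contra hz
    push Not at hz
    obtain ⟨h1, h2⟩ := hz
    have e1 : aeval z (Dp (C a') (C b') (X : ℚ[X]))
        = Dp (algebraMap ℚ (AlgebraicClosure ℚ) a') (algebraMap ℚ (AlgebraicClosure ℚ) b') z := by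
      have := map_Dp (aeval z : ℚ[X] →ₐ[ℚ] AlgebraicClosure ℚ).toRingHom (C a') (C b') X
      simpa using this
    have e2 : aeval z (C4p (C a') (C b') (X : ℚ[X]))
        = C4p (algebraMap ℚ (AlgebraicClosure ℚ) a') (algebraMap ℚ (AlgebraicClosure ℚ) b') z := by
      have := map_C4p (aeval z : ℚ[X] →ₐ[ℚ] AlgebraicClosure ℚ).toRingHom (C a') (C b') X
      simpa using this
    rw [e1] at h1
    rw [e2] at h2
    refine I2 (AlgebraicClosure ℚ) _ _ z (by norm_num) ?_ h1 h2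
    intro h
    apply habQ
    apply (algebraMap ℚ (AlgebraicClosure ℚ)).injective
    rw [map_pow (algebraMap ℚ (AlgebraicClosure ℚ)) a', map_pow (algebraMap ℚ _) b']
    exact h

end Fermat.Agent.S52A
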